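/-
RIBET row 38, WALL-p, (S4) CORE-OUT, WILD, piece KD (Kummer data), abstract part (helper247).

Mathlib only.

* `hilbert90_quot247` : Hilbert 90 for a group `Γ` acting on a field `F` by automorphisms, a
  subgroup `H ≤ Γ` and a `1`-cocycle `a : H → Fˣ` which is trivial on the kernel of a
  homomorphism `r : Γ → G` to a FINITE group, where the kernel of `r` is exactly the pointwise
  stabiliser of a subfield `F₀`.  (No finiteness of `H`, no Galois theory of `F`.)
-/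
import Mathlib

set_option autoImplicit false

namespace Fermat.Agent.Ribet.H247

open Finset

/-- **Hilbert 90, finite-quotient form.**  `a σ · σ b = b` for all `σ ∈ H`. -/
theorem hilbert90_quot247 {F : Type*} [Field F] {Γ : Type*} [Group Γ]
    (act : Γ →* (F ≃+* F)) (H : Subgroup Γ)
    {G : Type*} [Group G] [Finite G] (r : Γ →* G) (F₀ : Subfield F)
    (hfix : ∀ σ : Γ, r σ = 1 → ∀ c ∈ F₀, act σ c = c)
    (hfaith : ∀ σ : Γ, (∀ c ∈ F₀, act σ c = c) → r σ = 1)
    (a : Γ → F) (ha0 : ∀ σ ∈ H, a σ ≠ 0)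
    (hcoc : ∀ σ ∈ H, ∀ τ ∈ H, a (σ * τ) = a σ * act σ (a τ))
    (hker : ∀ σ ∈ H, r σ = 1 → a σ = 1) :
    ∃ b : F, b ≠ 0 ∧ ∀ σ ∈ H, a σ * act σ b = b := by
  classical
  -- the image of `H` in `G`
  let HG : Subgroup G := H.map r
  letI : Fintype HG := Fintype.ofFinite HG
  -- lifts
  have hlift : ∀ γ : HG, ∃ σ : Γ, σ ∈ H ∧ r σ = (γ : G) := fun γ => by
    obtain ⟨σ, hσ, hσγ⟩ := Subgroup.mem_map.mp γ.2
    exact ⟨σ, hσ, hσγ⟩
  choose s hsH hsr using hlift
  -- the key: `a` and the action on `F₀` only depend on the image in `G`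
  have key : ∀ σ ∈ H, ∀ σ' ∈ H, r σ = r σ' →
      a σ = a σ' ∧ ∀ c ∈ F₀, act σ c = act σ' c := by
    intro σ hσ σ' hσ' hrr
    have hρH : σ'⁻¹ * σ ∈ H := H.mul_mem (H.inv_mem hσ') hσ
    have hρ1 : r (σ'⁻¹ * σ) = 1 := by
      rw [map_mul, map_inv, hrr, inv_mul_cancel]
    have e : σ = σ' * (σ'⁻¹ * σ) := by rw [mul_inv_cancel_left]
    constructor
    · have h1 := hcoc σ' hσ' (σ'⁻¹ * σ) hρH
      rw [← e, hker _ hρH hρ1, map_one, mul_one] at h1
      exact h1
    · intro c hc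
      have h2 : act σ c = act σ' (act (σ'⁻¹ * σ) c) := by
        conv_lhs => rw [e]
        rw [map_mul]
        rfl
      rw [h2, hfix _ hρ1 c hc]
  -- the characters
  let χ : HG → (F₀ →* F) := fun γ =>
    (((act (s γ) : F ≃+* F) : F →+* F) : F →* F).comp ((F₀.subtype : F₀ →+* F) : F₀ →* F)
  have hχ : ∀ (γ : HG) (c : F₀), χ γ c = act (s γ) (c : F) := fun _ _ => rfl
  have hχinj : Function.Injective χ := by
    intro γ γ' h
    have h1 : ∀ c ∈ F₀, act ((s γ')⁻¹ * s γ) c = c := by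
      intro c hc
      have h2 : act (s γ) c = act (s γ') c := by
        have := DFunLike.congr_fun h ⟨c, hc⟩
        rwa [hχ, hχ] at this
      rw [map_mul, map_inv]
      show (act (s γ'))⁻¹ (act (s γ) c) = c
      rw [h2]
      show (act (s γ')).symm (act (s γ') c) = c
      exact RingEquiv.symm_apply_apply _ _
    have h3 := hfaith _ h1
    rw [map_mul, map_inv, hsr, hsr, inv_mul_eq_one] at h3
    exact Subtype.ext h3.symm
  have hind : LinearIndependent F (fun γ : HG => ((χ γ : F₀ →* F) : F₀ → F)) :=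
    (linearIndependent_monoidHom F₀ F).comp χ hχinj
  -- some `c` with nonvanishing sum
  obtain ⟨c, hc⟩ : ∃ c : F₀, ∑ γ : HG, a (s γ) * act (s γ) (c : F) ≠ 0 := by
    by_contra hcon
    push Not at hcon
    have hzero : ∑ γ : HG, a (s γ) • ((χ γ : F₀ →* F) : F₀ → F) = 0 := by
      funext x
      simp only [Finset.sum_apply, Pi.smul_apply, smul_eq_mul, Pi.zero_apply]
      exact hcon x
    have := (Fintype.linearIndependent_iff.mp hind) (fun γ => a (s γ)) hzero (1 : HG)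
    exact ha0 _ (hsH 1) this
  refine ⟨∑ γ : HG, a (s γ) * act (s γ) (c : F), hc, fun τ hτ => ?_⟩
  have hτG : r τ ∈ HG := Subgroup.mem_map.mpr ⟨τ, hτ, rfl⟩
  rw [map_sum, Finset.mul_sum]
  rw [← Equiv.sum_comp (Equiv.mulLeft (⟨r τ, hτG⟩ : HG))
    (fun γ : HG => a (s γ) * act (s γ) (c : F))]
  refine Finset.sum_congr rfl fun γ _ => ?_
  have hmem : τ * s γ ∈ H := H.mul_mem hτ (hsH γ)
  have hr : r (s ((⟨r τ, hτG⟩ : HG) * γ)) = r (τ * s γ) := by
    rw [hsr, map_mul, hsr]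
    rfl
  obtain ⟨k1, k2⟩ := key _ (hsH _) _ hmem hr
  show a τ * act τ (a (s γ) * act (s γ) (c : F)) =
    a (s ((⟨r τ, hτG⟩ : HG) * γ)) * act (s ((⟨r τ, hτG⟩ : HG) * γ)) (c : F)
  rw [k1, k2 _ c.2, hcoc τ hτ _ (hsH γ), map_mul, mul_assoc]
  congr 2
  rw [map_mul]
  rfl

end Fermat.Agent.Ribet.H247
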