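/-
RIBET row 38, WALL-p, (S4) CORE-OUT, WILD, piece KD (Kummer data)   (helper247, 2nd copy)

`N` a level, `FF N = ℚ̄(X₀(N)) ⊆ ℚ̄((t))`, `gal N σ` the Galois action on the coefficients,
`lcF N` the leading coefficient of the `t`-expansion, `IsKummerGen N p f x` (`H884`).

* `exists_fixed_kummerGen247` : a `p`-torsion class `x` fixed by a subgroup `H ≤ G_ℚ` (ANY
  subgroup, no closedness/finiteness hypothesis) has a Kummer generator `f` with `lcF f = 1` and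
  `gal σ f = f` for all `σ ∈ H`.
  (Hilbert 90 over the finite quotient of `H` by the normal open stabiliser of a first generator:
  `hilbert90_quot247` + `A2.H549.exists_stable_finite_mem_Fc`.)
* `exists_kummer_shift247` : `σ₁ x = x + t`, `f_x`, `f_t` normalised Kummer generators of `x`, `t`
  ⟹ `gal σ₁ f_x = f_x · f_t · G ^ p` with `lcF G = 1`; if `f_x` is fixed by `H₂`, `f_t` by `H₂`
  and `σ₁` normalises `H₂`, then `G` is fixed by `H₂`.   (`c₀ = 1` in PER.)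
* `kummerData247` : the two together, in the setting of `H704.CoreOut.WildStatement`.
-/
import Fermat.Agent.Ribet.H247.KDAbs
import Fermat.Agent.Ribet.H669.Gen
import Fermat.Agent.Ribet.H703.SplitConst
import Fermat.Agent.A2.H549.Desc
import Fermat.Agent.Lib.HI.H864.Modular
import Fermat.Agent.Ribet.H944.WildLevel

set_option autoImplicit false
set_option synthInstance.maxHeartbeats 400000
set_option maxHeartbeats 1000000
set_option linter.unusedSectionVars false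
set_option linter.style.haveILetI false

noncomputable section

namespace Fermat.Agent.Ribet.H247

open AlgebraicCurve ModularCurve HahnSeries
open Fermat.Agent.S24 Fermat.Agent.A2.H528 Fermat.Agent.A2.H129
open Fermat.Agent.Ribet.Spec Fermat.Agent.Ribet.H884 Fermat.Agent.Ribet.H703

section Basic

variable {N : ℕ} [NeZero N] {p : ℕ}

theorem gal_mul247 (σ τ : Kbar ≃ₐ[ℚ] Kbar) (f : FF N) :
    gal N (σ * τ) f = gal N σ (gal N τ f) := by
  apply Subtype.ext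
  show coeffMap ((σ * τ : Kbar ≃ₐ[ℚ] Kbar) : Kbar →+* Kbar) (f : LaurentSeries Kbar)
      = coeffMap (σ : Kbar →+* Kbar) (coeffMap (τ : Kbar →+* Kbar) (f : LaurentSeries Kbar))
  rw [coeffMap_coeffMap]
  exact coeffMap_congr (RingHom.ext fun _ => rfl) _

theorem gal_one247 (f : FF N) : gal N (1 : Kbar ≃ₐ[ℚ] Kbar) f = f := by
  apply Subtype.ext
  show coeffMap ((1 : Kbar ≃ₐ[ℚ] Kbar) : Kbar →+* Kbar) (f : LaurentSeries Kbar)
      = (f : LaurentSeries Kbar)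
  rw [show ((1 : Kbar ≃ₐ[ℚ] Kbar) : Kbar →+* Kbar) = RingHom.id Kbar from
    RingHom.ext fun _ => rfl, coeffMap_id]

variable (N) in
/-- The Galois action on `FF N` as a homomorphism. -/
def galHom247 : (Kbar ≃ₐ[ℚ] Kbar) →* (FF N ≃+* FF N) where
  toFun σ := gal N σ
  map_one' := RingEquiv.ext gal_one247
  map_mul' σ τ := RingEquiv.ext (gal_mul247 σ τ)

theorem galHom247_apply (σ : Kbar ≃ₐ[ℚ] Kbar) (f : FF N) : galHom247 N σ f = gal N σ f := rfl

theorem gal_inv_gal247 (σ : Kbar ≃ₐ[ℚ] Kbar) (f : FF N) : gal N σ⁻¹ (gal N σ f) = f := by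
  rw [← gal_mul247, inv_mul_cancel, gal_one247]

/-- Constants have order zero at every place. -/
theorem ord_algebraMap247 (v : Place Kbar (FF N)) {c : Kbar} (hc : c ≠ 0) :
    v.ord (algebraMap Kbar (FF N) c) = 0 := by
  have h1 : (⟨algebraMap Kbar (FF N) c, v.algebraMap_mem' c⟩ : v.toValuationSubring) *
      ⟨algebraMap Kbar (FF N) c⁻¹, v.algebraMap_mem' c⁻¹⟩ = 1 := by
    apply Subtype.ext
    show algebraMap Kbar (FF N) c * algebraMap Kbar (FF N) c⁻¹ = 1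
    rw [← map_mul, mul_inv_cancel₀ hc, map_one]
  have h2 : (⟨algebraMap Kbar (FF N) c⁻¹, v.algebraMap_mem' c⁻¹⟩ : v.toValuationSubring) *
      ⟨algebraMap Kbar (FF N) c, v.algebraMap_mem' c⟩ = 1 := by
    rw [mul_comm]; exact h1
  exact v.ord_coe_unit ⟨_, _, h1, h2⟩

/-- `σ f` is a Kummer generator of `σ x`. -/
theorem isKummerGen_gal247 (σ : Kbar ≃ₐ[ℚ] Kbar) {f : FF N} {x : JZero N}
    (h : IsKummerGen N p f x) : IsKummerGen N p (gal N σ f) (σ • x) := by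
  obtain ⟨hf, D, rfl, hD⟩ := h
  set g : SemilinearAut Kbar (FF N) := arithmeticGalois (modularFunctionFieldFull N) σ with hg
  have hτf : gal N σ f ≠ 0 := by simpa using hf
  refine ⟨hτf, SemilinearAut.degZeroSMulHom g D, ?_, fun v => ?_⟩
  · show _ = g • Pic0.mk D
    rw [SemilinearAut.pic0_smul_mk]
  · have h1 : v.ord (gal N σ f) = (g⁻¹ • v).ord f := ord_smul_eq g v f
    rw [h1, hD]
    simp only [SemilinearAut.coe_degZeroSMulHom, SemilinearAut.divisor_smul_apply]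

/-- A nonzero constant multiple of a Kummer generator is a Kummer generator. -/
theorem isKummerGen_const_mul247 {f : FF N} {x : JZero N} (h : IsKummerGen N p f x)
    {c : Kbar} (hc : c ≠ 0) : IsKummerGen N p (algebraMap Kbar (FF N) c * f) x := by
  obtain ⟨hf, D, hD, hord⟩ := h
  have hc' : algebraMap Kbar (FF N) c ≠ 0 := by
    rw [Ne, map_eq_zero_iff _ (algebraMap Kbar (FF N)).injective]
    exact hc
  refine ⟨mul_ne_zero hc' hf, D, hD, fun v => ?_⟩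
  rw [Place.ord_mul v hc' hf, ord_algebraMap247 v hc, zero_add, hord]

/-- Multiplying a Kummer generator by a `p`-th power does not change the class. -/
theorem isKummerGen_mul_pow247 {f b : FF N} {x : JZero N} (hf : IsKummerGen N p f x)
    (hb : b ≠ 0) : IsKummerGen N p (f * b ^ p) x := by
  obtain ⟨hf0, D, hD, hord⟩ := hf
  obtain ⟨Db, hDb, hdeg⟩ :=
    (Fermat.Agent.Lib.HI.H864.hasPrincipalDivisors_FF N).exists_divisor b hb
  set Db0 : Divisor.degZero (K := Kbar) (F := FF N) := ⟨Db, hdeg⟩ with hDb0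
  refine ⟨mul_ne_zero hf0 (pow_ne_zero _ hb), D + Db0, ?_, fun v => ?_⟩
  · rw [← hD]
    show (QuotientAddGroup.mk (D + Db0) : Pic0 Kbar (FF N)) = QuotientAddGroup.mk D
    rw [QuotientAddGroup.eq]
    refine AddSubgroup.mem_addSubgroupOf.mpr ⟨b⁻¹, inv_ne_zero hb, fun v => ?_⟩
    simp only [AddSubgroup.coe_add, AddSubgroup.coe_neg, Finsupp.add_apply,
      Finsupp.neg_apply, hDb0]
    rw [Place.ord_inv, hDb v]
    ring
  · rw [Place.ord_mul v hf0 (pow_ne_zero _ hb), ← zpow_natCast, Place.ord_zpow, hord]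
    simp only [AddSubgroup.coe_add, Finsupp.add_apply, hDb0]
    rw [hDb v]
    ring

/-- Normalised `p`-th roots are unique. -/
theorem eq_of_pow_eq247 (hp : p ≠ 0) {a a' : FF N} (ha' : a' ≠ 0) (h : a ^ p = a' ^ p)
    (hlc : lcF N a = 1) (hlc' : lcF N a' = 1) : a = a' := by
  have h1 : (a / a') ^ p = 1 := by
    rw [div_pow, h, div_self (pow_ne_zero _ ha')]
  have h2 : lcF N (a / a') = 1 := by
    rw [map_div₀, hlc, hlc', div_one]
  have h3 := eq_one_of_pow_eq_one N hp h1 h2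
  exact (div_eq_one_iff_eq ha').mp h3

/-- Two Kummer generators of the same class, the first one normalised: normalised ratio. -/
theorem exists_normalised_ratio247 (hp : p ≠ 0) {f f₀ : FF N} {x : JZero N}
    (h : IsKummerGen N p f x) (h₀ : IsKummerGen N p f₀ x) (hlc : lcF N f = lcF N f₀) :
    ∃ a : FF N, a ≠ 0 ∧ lcF N a = 1 ∧ f = f₀ * a ^ p := by
  obtain ⟨c, g, hc, hg, hfg⟩ := Fermat.Agent.Ribet.H669.exists_eq_const_mul_pow h h₀
  have hf₀0 : f₀ ≠ 0 := h₀.1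
  have hlg : lcF N g ≠ 0 := lcF_ne_zero N hg
  have hl0 : lcF N f₀ ≠ 0 := lcF_ne_zero N hf₀0
  -- `1 = c · lc(g)^p`
  have h1 : c * lcF N g ^ p = 1 := by
    have := congrArg (lcF N) hfg
    rw [map_mul, map_mul, map_pow, lcF_algebraMap, hlc] at this
    have h2 : lcF N f₀ * 1 = lcF N f₀ * (c * lcF N g ^ p) := by
      linear_combination this
    exact (mul_left_cancel₀ hl0 h2).symm
  have hcg : algebraMap Kbar (FF N) (lcF N g) ≠ 0 := by
    rw [Ne, map_eq_zero_iff _ (algebraMap Kbar (FF N)).injective]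
    exact hlg
  refine ⟨g * (algebraMap Kbar (FF N) (lcF N g))⁻¹, mul_ne_zero hg (inv_ne_zero hcg), ?_, ?_⟩
  · rw [map_mul, map_inv₀, lcF_algebraMap, mul_inv_cancel₀ hlg]
  · have hc' : algebraMap Kbar (FF N) c = ((algebraMap Kbar (FF N) (lcF N g)) ^ p)⁻¹ := by
      rw [← map_pow, ← map_inv₀]
      congr 1
      exact eq_inv_of_mul_eq_one_left h1
    rw [hfg, hc', mul_pow, inv_pow]
    ring

end Basic

/-! ## Fields of definition -/

section Field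

variable (N : ℕ) [NeZero N]

/-- An automorphism fixing `E` pointwise fixes `Fc N E` pointwise. -/
theorem gal_eq_self_of_mem_Fc247 {E : IntermediateField ℚ Kbar} {σ : Kbar ≃ₐ[ℚ] Kbar}
    (hσ : ∀ e ∈ E, σ e = e) {f : FF N} (hf : f ∈ Fermat.Agent.S18.Mod.Fc N E) :
    gal N σ f = f := by
  have hle : Fermat.Agent.S18.Mod.Fc N E ≤
      RingHom.eqLocusField ((gal N σ : FF N ≃+* FF N) : FF N →+* FF N) (RingHom.id (FF N)) := by
    refine Subfield.closure_le.mpr ?_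
    rintro y (hy | hy)
    · obtain ⟨c, hc, rfl⟩ := hy
      show gal N σ (algebraMap Kbar (FF N) c) = algebraMap Kbar (FF N) c
      rw [gal_algebraMap, hσ c hc]
    · obtain ⟨d, hne, hd, rfl⟩ := hy
      exact Fermat.Agent.A2.H549.galOm_jd N σ d hd
  exact hle hf

end Field

/-! ## KD (a): rational Kummer generators -/

section Descent

variable {N : ℕ} [NeZero N] {p : ℕ}

/-- **KD (a).**  A `p`-torsion class fixed by a subgroup `H` of `G_ℚ` has a normalised Kummer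
generator fixed by `H`. -/
theorem exists_fixed_kummerGen247 (hp : p ≠ 0) (H : Subgroup (Kbar ≃ₐ[ℚ] Kbar))
    (x : JZero N) (hpx : p • x = 0) (hx : ∀ σ ∈ H, σ • x = x) :
    ∃ f : FF N, IsKummerGen N p f x ∧ lcF N f = 1 ∧ ∀ σ ∈ H, gal N σ f = f := by
  classical
  -- a first normalised generator
  obtain ⟨f₁, hf₁⟩ := exists_isKummerGen p x hpx
  have hl₁ : lcF N f₁ ≠ 0 := lcF_ne_zero N hf₁.1
  set f₀ : FF N := algebraMap Kbar (FF N) (lcF N f₁)⁻¹ * f₁ with hf₀def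
  have hf₀ : IsKummerGen N p f₀ x := isKummerGen_const_mul247 hf₁ (inv_ne_zero hl₁)
  have hlc₀ : lcF N f₀ = 1 := by
    rw [hf₀def, map_mul, lcF_algebraMap, inv_mul_cancel₀ hl₁]
  have hf₀0 : f₀ ≠ 0 := hf₀.1
  -- the cocycle
  have hex : ∀ σ : Kbar ≃ₐ[ℚ] Kbar, ∃ a : FF N, σ ∈ H →
      (a ≠ 0 ∧ lcF N a = 1 ∧ gal N σ f₀ = f₀ * a ^ p) := by
    intro σ
    by_cases hσ : σ ∈ H
    · have h1 : IsKummerGen N p (gal N σ f₀) x := by
        have := isKummerGen_gal247 σ hf₀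
        rwa [hx σ hσ] at this
      have h2 : lcF N (gal N σ f₀) = lcF N f₀ := by
        rw [lcF_gal, hlc₀, map_one]
      obtain ⟨a, ha0, ha1, ha⟩ := exists_normalised_ratio247 hp h1 hf₀ h2
      exact ⟨a, fun _ => ⟨ha0, ha1, ha⟩⟩
    · exact ⟨1, fun h => absurd h hσ⟩
  choose a ha using hex
  have hcoc : ∀ σ ∈ H, ∀ τ ∈ H, a (σ * τ) = a σ * galHom247 N σ (a τ) := by
    intro σ hσ τ hτ
    obtain ⟨h1, h2, h3⟩ := ha σ hσ
    obtain ⟨k1, k2, k3⟩ := ha τ hτ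
    obtain ⟨m1, m2, m3⟩ := ha (σ * τ) (H.mul_mem hσ hτ)
    show a (σ * τ) = a σ * gal N σ (a τ)
    have hne : a σ * gal N σ (a τ) ≠ 0 := by
      refine mul_ne_zero h1 ?_
      rw [Ne, map_eq_zero_iff _ (gal N σ).injective]
      exact k1
    refine eq_of_pow_eq247 hp hne ?_ m2 ?_
    · have e1 : f₀ * a (σ * τ) ^ p = f₀ * (a σ * gal N σ (a τ)) ^ p := by
        rw [← m3, gal_mul247, k3, map_mul, map_pow, h3, mul_pow]
        ring
      exact mul_left_cancel₀ hf₀0 e1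
    · rw [map_mul, h2, lcF_gal, k2, map_one, mul_one]
  -- the finite level
  obtain ⟨E, hEfin, -, hΦ, hEst⟩ :=
    Fermat.Agent.A2.H549.exists_stable_finite_mem_Fc N ∅ {f₀}
  have hf₀E : f₀ ∈ Fermat.Agent.S18.Mod.Fc N E := hΦ f₀ (Finset.mem_singleton_self f₀)
  haveI := hEfin
  haveI := Fermat.Agent.A2.H549.normal_Qb
  haveI hnorm : Normal ℚ E :=
    (IntermediateField.normal_iff_forall_map_le' (K := E)).mpr (by
      rintro σ _ ⟨e, he, rfl⟩
      exact hEst σ e he)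
  let r : (Kbar ≃ₐ[ℚ] Kbar) →* (E ≃ₐ[ℚ] E) := AlgEquiv.restrictNormalHom E
  have hr_apply : ∀ (σ : Kbar ≃ₐ[ℚ] Kbar) (e : E), ((r σ e : E) : Kbar) = σ (e : Kbar) :=
    fun σ e => AlgEquiv.restrictNormal_commutes σ E e
  have hfixE : ∀ σ : Kbar ≃ₐ[ℚ] Kbar, r σ = 1 → ∀ e ∈ E, σ e = e := by
    intro σ hσ e he
    have := hr_apply σ ⟨e, he⟩
    rw [hσ] at this
    exact this.symm
  have hfix : ∀ σ : Kbar ≃ₐ[ℚ] Kbar, r σ = 1 →
      ∀ c ∈ Fermat.Agent.S18.Mod.Fc N E, galHom247 N σ c = c :=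
    fun σ hσ c hc => gal_eq_self_of_mem_Fc247 N (hfixE σ hσ) hc
  have hfaith : ∀ σ : Kbar ≃ₐ[ℚ] Kbar,
      (∀ c ∈ Fermat.Agent.S18.Mod.Fc N E, galHom247 N σ c = c) → r σ = 1 := by
    intro σ hσ
    apply AlgEquiv.ext
    intro e
    apply Subtype.ext
    rw [hr_apply]
    have hmem : algebraMap Kbar (FF N) (e : Kbar) ∈ Fermat.Agent.S18.Mod.Fc N E :=
      Subfield.subset_closure (Or.inl ⟨(e : Kbar), e.2, rfl⟩)
    have h1 := hσ _ hmem
    rw [galHom247_apply, gal_algebraMap] at h1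
    exact (algebraMap Kbar (FF N)).injective h1
  have hker : ∀ σ ∈ H, r σ = 1 → a σ = 1 := by
    intro σ hσ hrσ
    obtain ⟨h1, h2, h3⟩ := ha σ hσ
    have h4 : gal N σ f₀ = f₀ := gal_eq_self_of_mem_Fc247 N (hfixE σ hrσ) hf₀E
    rw [h4] at h3
    have h5 : a σ ^ p = 1 := by
      have : f₀ * 1 = f₀ * a σ ^ p := by rw [mul_one]; exact h3
      exact (mul_left_cancel₀ hf₀0 this).symm
    exact eq_one_of_pow_eq_one N hp h5 h2
  obtain ⟨b, hb0, hb⟩ := hilbert90_quot247 (galHom247 N) H r (Fermat.Agent.S18.Mod.Fc N E)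
    hfix hfaith a (fun σ hσ => (ha σ hσ).1) hcoc hker
  -- the fixed generator
  have hlb : lcF N b ≠ 0 := lcF_ne_zero N hb0
  have hfb : IsKummerGen N p (f₀ * b ^ p) x := isKummerGen_mul_pow247 hf₀ hb0
  have hfixb : ∀ σ ∈ H, gal N σ (f₀ * b ^ p) = f₀ * b ^ p := by
    intro σ hσ
    obtain ⟨h1, h2, h3⟩ := ha σ hσ
    have h4 : a σ * gal N σ b = b := hb σ hσ
    rw [map_mul, map_pow, h3, mul_assoc, ← mul_pow, h4]
  have hlfix : ∀ σ ∈ H, σ (lcF N (f₀ * b ^ p)) = lcF N (f₀ * b ^ p) := by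
    intro σ hσ
    rw [← lcF_gal, hfixb σ hσ]
  have hl0 : lcF N (f₀ * b ^ p) ≠ 0 := lcF_ne_zero N hfb.1
  refine ⟨algebraMap Kbar (FF N) (lcF N (f₀ * b ^ p))⁻¹ * (f₀ * b ^ p),
    isKummerGen_const_mul247 hfb (inv_ne_zero hl0), ?_, fun σ hσ => ?_⟩
  · rw [map_mul, lcF_algebraMap, inv_mul_cancel₀ hl0]
  · rw [map_mul, gal_algebraMap, hfixb σ hσ, map_inv₀, hlfix σ hσ]

end Descent

/-! ## KD (b): the shift relation -/

section Shift

variable {N : ℕ} [NeZero N] {p : ℕ}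

/-- **KD (b).**  `σ₁ x = x + t` ⟹ `gal σ₁ f_x = f_x · f_t · G ^ p`, `lcF G = 1`. -/
theorem exists_kummer_shift247 (hp : p ≠ 0) (σ₁ : Kbar ≃ₐ[ℚ] Kbar) {x t : JZero N}
    (hσx : σ₁ • x = x + t) {fx ft : FF N} (hfx : IsKummerGen N p fx x)
    (hft : IsKummerGen N p ft t) (hlx : lcF N fx = 1) (hlt : lcF N ft = 1) :
    ∃ G : FF N, G ≠ 0 ∧ lcF N G = 1 ∧ gal N σ₁ fx = fx * ft * G ^ p := by
  have h1 : IsKummerGen N p (gal N σ₁ fx) (x + t) := by
    have := isKummerGen_gal247 σ₁ hfx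
    rwa [hσx] at this
  have h2 : IsKummerGen N p (fx * ft) (x + t) := hfx.mul hft
  have h3 : lcF N (gal N σ₁ fx) = lcF N (fx * ft) := by
    rw [lcF_gal, hlx, map_one, map_mul, hlx, hlt, mul_one]
  exact exists_normalised_ratio247 hp h1 h2 h3

/-- **KD (b), rationality of `G`.**  If `f_x` and `f_t` are fixed by `ρ` and by `σ₁⁻¹ ρ σ₁`,
then so is the normalised `G`. -/
theorem shift_fixed247 (hp : p ≠ 0) (σ₁ ρ : Kbar ≃ₐ[ℚ] Kbar) {fx ft G : FF N}
    (hfx0 : fx ≠ 0) (hft0 : ft ≠ 0) (hG0 : G ≠ 0) (hlG : lcF N G = 1)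
    (hrel : gal N σ₁ fx = fx * ft * G ^ p)
    (hρx : gal N ρ fx = fx) (hρt : gal N ρ ft = ft)
    (hconj : gal N (σ₁⁻¹ * ρ * σ₁) fx = fx) : gal N ρ G = G := by
  -- `ρ σ₁ fx = σ₁ fx`
  have h1 : gal N ρ (gal N σ₁ fx) = gal N σ₁ fx := by
    have e : ρ * σ₁ = σ₁ * (σ₁⁻¹ * ρ * σ₁) := by
      rw [mul_assoc, mul_inv_cancel_left]
    rw [← gal_mul247, e, gal_mul247, hconj]
  have h2 : fx * ft * (gal N ρ G) ^ p = fx * ft * G ^ p := by
    have := congrArg (gal N ρ) hrel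
    rw [h1, map_mul, map_mul, map_pow, hρx, hρt] at this
    rw [← this, hrel]
  have h3 : (gal N ρ G) ^ p = G ^ p := mul_left_cancel₀ (mul_ne_zero hfx0 hft0) h2
  refine eq_of_pow_eq247 hp hG0 h3 ?_ hlG
  rw [lcF_gal, hlG, map_one]

end Shift

/-! ## KD in the setting of `H704.CoreOut.WildStatement` -/

section Setting

open Fermat.Agent.Ribet.H944.Wall

variable {N : ℕ} [NeZero N] {p : ℕ}

/-- `H₂ = Stab_{I₁}(x)`: the inertia elements acting trivially on `μ_p` and fixing `x`. -/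
def stabOne247 (A : ValuationSubring Kbar) (p : ℕ) (x : JZero N) :
    Subgroup (Kbar ≃ₐ[ℚ] Kbar) :=
  Fermat.Agent.Ribet.H785.inertiaOne A p ⊓ MulAction.stabilizer (Kbar ≃ₐ[ℚ] Kbar) x

theorem mem_stabOne247 {A : ValuationSubring Kbar} {x : JZero N} {ρ : Kbar ≃ₐ[ℚ] Kbar} :
    ρ ∈ stabOne247 A p x ↔ ρ ∈ A.inertiaSubgroupIn ℚ ∧ CycloAt p ρ 1 ∧ ρ • x = x := by
  unfold stabOne247
  rw [Subgroup.mem_inf, MulAction.mem_stabilizer_iff]
  constructor
  · rintro ⟨⟨h1, h2⟩, h3⟩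
    exact ⟨h1, h2, h3⟩
  · rintro ⟨h1, h2, h3⟩
    exact ⟨⟨h1, h2⟩, h3⟩

/-- **KD, the generator of `t`.**  The toric class has a normalised Kummer generator fixed by
`I₁`. -/
theorem exists_ft247 (hp : p ≠ 0) (A : ValuationSubring Kbar) (t : JZero N) (hpt : p • t = 0)
    (ht : ∀ σ ∈ A.inertiaSubgroupIn ℚ, ∀ c : ℕ, CycloAt p σ c → σ • t = c • t) :
    ∃ ft : FF N, IsKummerGen N p ft t ∧ lcF N ft = 1 ∧
      ∀ ρ ∈ A.inertiaSubgroupIn ℚ, CycloAt p ρ 1 → gal N ρ ft = ft := by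
  obtain ⟨ft, h1, h2, h3⟩ := exists_fixed_kummerGen247 hp
    (Fermat.Agent.Ribet.H785.inertiaOne A p) t hpt (fun σ hσ => by
      have := ht σ hσ.1 1 hσ.2
      rwa [one_nsmul] at this)
  exact ⟨ft, h1, h2, fun ρ hρ hρ1 => h3 ρ ⟨hρ, hρ1⟩⟩

/-- **KD.**  In the setting of WILD (`σ₁ ∈ I₁`, `σ₁ x = x + t`, `t` toric), for ANY normalised
Kummer generator `f_t` of `t` fixed by `I₁`: there are a normalised Kummer generator `f_x` of `x`
and a normalised `G`, both fixed by `H₂ = Stab_{I₁}(x)`, with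
`gal σ₁ f_x = f_x · f_t · G ^ p`. -/
theorem kummerData247 (hp : p ≠ 0) (A : ValuationSubring Kbar) (x t : JZero N)
    (hpx : p • x = 0)
    (ht : ∀ σ ∈ A.inertiaSubgroupIn ℚ, ∀ c : ℕ, CycloAt p σ c → σ • t = c • t)
    {σ₁ : Kbar ≃ₐ[ℚ] Kbar} (hσ₁ : σ₁ ∈ A.inertiaSubgroupIn ℚ) (hσ₁x : σ₁ • x = x + t)
    (ft : FF N) (hft : IsKummerGen N p ft t) (hlt : lcF N ft = 1)
    (hfixt : ∀ ρ ∈ A.inertiaSubgroupIn ℚ, CycloAt p ρ 1 → gal N ρ ft = ft) :
    ∃ fx G : FF N, IsKummerGen N p fx x ∧ lcF N fx = 1 ∧ G ≠ 0 ∧ lcF N G = 1 ∧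
      (∀ ρ ∈ A.inertiaSubgroupIn ℚ, CycloAt p ρ 1 → ρ • x = x → gal N ρ fx = fx) ∧
      (∀ ρ ∈ A.inertiaSubgroupIn ℚ, CycloAt p ρ 1 → ρ • x = x → gal N ρ G = G) ∧
      gal N σ₁ fx = fx * ft * G ^ p := by
  obtain ⟨fx, hfx, hlx, hfixx⟩ := exists_fixed_kummerGen247 hp (stabOne247 A p x) x hpx
    (fun σ hσ => (mem_stabOne247.mp hσ).2.2)
  obtain ⟨G, hG0, hlG, hrel⟩ := exists_kummer_shift247 hp σ₁ hσ₁x hfx hft hlx hlt
  refine ⟨fx, G, hfx, hlx, hG0, hlG,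
    fun ρ h1 h2 h3 => hfixx ρ (mem_stabOne247.mpr ⟨h1, h2, h3⟩), fun ρ h1 h2 h3 => ?_, hrel⟩
  refine shift_fixed247 hp σ₁ ρ hfx.1 hft.1 hG0 hlG hrel
    (hfixx ρ (mem_stabOne247.mpr ⟨h1, h2, h3⟩)) (hfixt ρ h1 h2) ?_
  apply hfixx
  rw [mem_stabOne247]
  refine ⟨mul_mem (mul_mem (inv_mem hσ₁) h1) hσ₁, ?_, ?_⟩
  · -- conjugation preserves `I₁`
    intro z hz
    rw [pow_one]
    have k1 : (σ₁ z) ^ p = 1 := by rw [← map_pow, hz, map_one]
    have k2 := h2 (σ₁ z) k1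
    rw [pow_one] at k2
    show σ₁⁻¹ (ρ (σ₁ z)) = z
    rw [k2]
    show (σ₁⁻¹ * σ₁) z = z
    rw [inv_mul_cancel, AlgEquiv.one_apply]
  · have hρt : ρ • t = t := by
      have := ht ρ h1 1 h2
      rwa [one_nsmul] at this
    rw [mul_smul, mul_smul, hσ₁x, smul_add, h3, hρt, ← hσ₁x, inv_smul_smul]

end Setting

end Fermat.Agent.Ribet.H247

end
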