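/-
RIBET row 38, WALL-p, (S4) CORE-OUT, WILD, piece KD in the shape consumed by the cover side
`H819.PerCtx.shell_period_BC`   (helper247)

`E₁ ⊆ E₂ ⊆ ℚ̄` the tame and the wild level (`E₁ ⊆ ℚ̄^{I₁}`, `ℚ̄^{H₂} ⊆ E₂`,
`H₂ = Stab_{I₁}(x)`), `f_t ∈ F_{E₁}` a normalised Kummer generator of `t`.

* `kummerData_BC247` : `f₂, G₀ ∈ F_{E₂}` with `embBC f₂` a normalised Kummer generator of `x` and
  the AMBIENT KD relation
  `coeffMap σ₁ (embBC f₂) = embBC f₂ · C 1 · embBC f_t · (embBC G₀) ^ p`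
  (= hypothesis `hσ` of `H819.PerCtx.shell_period_BC` with `κ = 1`).
* `exists_ft_BC247` : a normalised Kummer generator `f_t ∈ F_{E₁}` of `t` (`ℚ̄^{I₁} ⊆ E₁`).
-/
import Fermat.Agent.Ribet.H247.KD
import Fermat.Agent.Ribet.H819.PerDesc

set_option autoImplicit false
set_option synthInstance.maxHeartbeats 400000
set_option maxHeartbeats 1000000
set_option linter.unusedSectionVars false
set_option linter.style.haveILetI false

noncomputable section

namespace Fermat.Agent.Ribet.H247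

open AlgebraicCurve ModularCurve HahnSeries
open Fermat.Agent.S24 Fermat.Agent.A2.H528 Fermat.Agent.A2.H129
open Fermat.Agent.Ribet.Spec Fermat.Agent.Ribet.H884 Fermat.Agent.Ribet.H703
open Fermat.Agent.Ribet.H944.Wall Fermat.Agent.Ribet.H819

section BC

variable {N : ℕ} [NeZero N] {p : ℕ}

theorem coe_gal247 (σ : Kbar ≃ₐ[ℚ] Kbar) (f : FF N) :
    ((gal N σ f : FF N) : LaurentSeries Kbar) =
      coeffMap (σ : Kbar →+* Kbar) (f : LaurentSeries Kbar) := rfl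

/-- A function with coefficients in a field fixed by `ρ` is fixed by `ρ`. -/
theorem gal_eq_self_of_embBC247 {E : IntermediateField ℚ Kbar} {ρ : Kbar ≃ₐ[ℚ] Kbar}
    (hρ : ∀ e ∈ E, ρ e = e) {f : FF N}
    {y : ↥(laurentBaseChange ↥E (modularFunctionFieldFull N))}
    (hf : (f : LaurentSeries Kbar) = embBC (modularFunctionFieldFull N) E y) :
    gal N ρ f = f := by
  apply Subtype.ext
  rw [coe_gal247, hf, embBC_apply, coeffMap_coeffMap]
  exact coeffMap_congr (RingHom.ext fun e : ↥E => hρ (e : Kbar) e.2) _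

/-- The coefficients of a function fixed by `ρ` are fixed by `ρ`. -/
theorem coeff_fixed247 {ρ : Kbar ≃ₐ[ℚ] Kbar} {f : FF N} (h : gal N ρ f = f) (n : ℤ) :
    ρ ((f : LaurentSeries Kbar).coeff n) = (f : LaurentSeries Kbar).coeff n := by
  have := congrArg (fun g : FF N => (g : LaurentSeries Kbar).coeff n) h
  simpa [coe_gal247] using this

/-- **KD, the generator of `t` at the tame level.** -/
theorem exists_ft_BC247 (hp : p ≠ 0) (A : ValuationSubring Kbar) (t : JZero N)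
    (hpt : p • t = 0)
    (ht : ∀ σ ∈ A.inertiaSubgroupIn ℚ, ∀ c : ℕ, CycloAt p σ c → σ • t = c • t)
    (E₁ : IntermediateField ℚ Kbar)
    (hE₁ : ∀ y : Kbar, (∀ ρ ∈ A.inertiaSubgroupIn ℚ, CycloAt p ρ 1 → ρ y = y) → y ∈ E₁) :
    ∃ (ft : ↥(laurentBaseChange ↥E₁ (modularFunctionFieldFull N))) (ft' : FF N),
      (ft' : LaurentSeries Kbar) = embBC (modularFunctionFieldFull N) E₁ ft ∧
      IsKummerGen N p ft' t ∧ lcF N ft' = 1 ∧ ft ≠ 0 ∧
      (ft : LaurentSeries ↥E₁).leadingCoeff = 1 := by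
  obtain ⟨ft', h1, h2, h3⟩ := exists_ft247 hp A t hpt ht
  obtain ⟨ft, hft⟩ := exists_FE_of_coeff_mem (modularFunctionFieldFull N) E₁ ft'.2
    (fun n => hE₁ _ (fun ρ hρ hρ1 => coeff_fixed247 (h3 ρ hρ hρ1) n))
  have hne : ft ≠ 0 := by
    rintro rfl
    rw [map_zero] at hft
    exact h1.1 (Subtype.ext hft.symm)
  refine ⟨ft, ft', hft.symm, h1, h2, hne, ?_⟩
  have h4 : (embBC (modularFunctionFieldFull N) E₁ ft).leadingCoeff = 1 := by
    rw [hft]
    exact h2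
  rw [embBC_apply] at h4
  have h5 := leadingCoeff_map_of_injective (algebraMap ↥E₁ Kbar) (ft : LaurentSeries ↥E₁)
  have h6 : algebraMap ↥E₁ Kbar (ft : LaurentSeries ↥E₁).leadingCoeff = algebraMap ↥E₁ Kbar 1 := by
    rw [map_one, ← h4]
    exact h5.symm
  exact (algebraMap ↥E₁ Kbar).injective h6

/-- **KD in the shape of `H819.PerCtx.shell_period_BC`.** -/
theorem kummerData_BC247 (hp : p ≠ 0) (A : ValuationSubring Kbar) (x t : JZero N)
    (hpx : p • x = 0)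
    (ht : ∀ σ ∈ A.inertiaSubgroupIn ℚ, ∀ c : ℕ, CycloAt p σ c → σ • t = c • t)
    {σ₁ : Kbar ≃ₐ[ℚ] Kbar} (hσ₁ : σ₁ ∈ A.inertiaSubgroupIn ℚ) (hσ₁x : σ₁ • x = x + t)
    (E₁ E₂ : IntermediateField ℚ Kbar)
    (hE₁ : ∀ e ∈ E₁, ∀ ρ ∈ A.inertiaSubgroupIn ℚ, CycloAt p ρ 1 → ρ e = e)
    (hE₂ : ∀ y : Kbar,
      (∀ ρ ∈ A.inertiaSubgroupIn ℚ, CycloAt p ρ 1 → ρ • x = x → ρ y = y) → y ∈ E₂)
    (ft : ↥(laurentBaseChange ↥E₁ (modularFunctionFieldFull N))) (ft' : FF N)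
    (hcoe : (ft' : LaurentSeries Kbar) = embBC (modularFunctionFieldFull N) E₁ ft)
    (hft : IsKummerGen N p ft' t) (hlt : lcF N ft' = 1) :
    ∃ (f₂ G₀ : ↥(laurentBaseChange ↥E₂ (modularFunctionFieldFull N))) (fx : FF N),
      (fx : LaurentSeries Kbar) = embBC (modularFunctionFieldFull N) E₂ f₂ ∧
      IsKummerGen N p fx x ∧ lcF N fx = 1 ∧ f₂ ≠ 0 ∧ G₀ ≠ 0 ∧
      coeffMap (σ₁ : Kbar →+* Kbar) (embBC (modularFunctionFieldFull N) E₂ f₂) =
        embBC (modularFunctionFieldFull N) E₂ f₂ * HahnSeries.C (1 : Kbar) *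
          embBC (modularFunctionFieldFull N) E₁ ft *
          (embBC (modularFunctionFieldFull N) E₂ G₀) ^ p := by
  have hfixt : ∀ ρ ∈ A.inertiaSubgroupIn ℚ, CycloAt p ρ 1 → gal N ρ ft' = ft' :=
    fun ρ hρ hρ1 => gal_eq_self_of_embBC247 (fun e he => hE₁ e he ρ hρ hρ1) hcoe
  obtain ⟨fx, G, hfx, hlx, hG0, hlG, hfixx, hfixG, hrel⟩ :=
    kummerData247 hp A x t hpx ht hσ₁ hσ₁x ft' hft hlt hfixt
  obtain ⟨f₂, hf₂⟩ := exists_FE_of_coeff_mem (modularFunctionFieldFull N) E₂ fx.2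
    (fun n => hE₂ _ (fun ρ hρ hρ1 hρx => coeff_fixed247 (hfixx ρ hρ hρ1 hρx) n))
  obtain ⟨G₀, hG₀⟩ := exists_FE_of_coeff_mem (modularFunctionFieldFull N) E₂ G.2
    (fun n => hE₂ _ (fun ρ hρ hρ1 hρx => coeff_fixed247 (hfixG ρ hρ hρ1 hρx) n))
  refine ⟨f₂, G₀, fx, hf₂.symm, hfx, hlx, ?_, ?_, ?_⟩
  · rintro rfl
    rw [map_zero] at hf₂
    exact hfx.1 (Subtype.ext hf₂.symm)
  · rintro rfl
    rw [map_zero] at hG₀
    exact hG0 (Subtype.ext hG₀.symm)
  · have h1 := congrArg (fun g : FF N => (g : LaurentSeries Kbar)) hrel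
    have h2 : ((fx * ft' * G ^ p : FF N) : LaurentSeries Kbar) =
        (fx : LaurentSeries Kbar) * (ft' : LaurentSeries Kbar) * (G : LaurentSeries Kbar) ^ p :=
      rfl
    simp only [coe_gal247] at h1
    rw [h2] at h1
    rw [hf₂, hG₀, ← hcoe, h1, map_one, mul_one]

end BC

end Fermat.Agent.Ribet.H247

end
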