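/-
RIBET row 38, WALL-p, (S4) CORE-OUT, WILD: **KD** = `H704.CoreOut.KDStatement`, VERBATIM
(helper247)

`kd247 : H704.CoreOut.KDStatement`.

Route: `exists_fixed_kummerGen247` (Hilbert 90 over a finite quotient, `KD.lean`) for `t` at
`I₁` and for `x` at `H₂ = Stab_{I₁}(x)`; normalised ratio `σ₁ f_x = f_x · f_t · G ^ p`
(`κ = 1`), `G` fixed by `H₂` since `σ₁` normalises `H₂`; descent of the coefficients to the
levels (`H819.PerDesc`); `p ∣ order` at the cusp `∞` (`S15.H362.cuspInfty`);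
`DivisibleDiv` by `A2.T1.H669.divisibleDiv_of_ord`; `f_t` is not a `p`-th power since `t ≠ 0`.
-/
import Fermat.Agent.Ribet.H247.KDBC
import Fermat.Agent.Ribet.H704.KDSpec
import Fermat.Agent.S15.H362.CuspDefs
import Fermat.Agent.A2.T1.H669.T2
import Fermat.Agent.Ribet.H819.PerKum

set_option autoImplicit false
set_option synthInstance.maxHeartbeats 400000
set_option maxHeartbeats 1000000
set_option linter.unusedSectionVars false
set_option linter.style.haveILetI false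

noncomputable section

namespace Fermat.Agent.Ribet.H247

open AlgebraicCurve ModularCurve HahnSeries
open Fermat.Agent.S24 Fermat.Agent.A2.H528 Fermat.Agent.A2.H129
open Fermat.Agent.Ribet.Spec Fermat.Agent.Ribet.H884 Fermat.Agent.Ribet.H703
open Fermat.Agent.Ribet.H944.Wall Fermat.Agent.Ribet.H819

section Core

variable {N : ℕ} [NeZero N] {p : ℕ}

/-- The order at the cusp `∞` of a Kummer generator is divisible by `p`. -/
theorem dvd_order_of_isKummerGen247 {f : FF N} {x : JZero N} (h : IsKummerGen N p f x) :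
    (p : ℤ) ∣ (f : LaurentSeries Kbar).order := by
  obtain ⟨-, D, -, hord⟩ := h
  have hσ : Fermat.Agent.S24.H144.Induces (K := Kbar) (Fermat.Agent.S15.H362.inclQ N)
      (Fermat.Agent.S15.H362.cuspInfty N) :=
    Fermat.Agent.S24.H144.induces_placeOfEmb _ _ _
  obtain ⟨g, -, hg⟩ := Fermat.Agent.S24.H144.loc_exists_mult
    (Fermat.Agent.S15.H362.cuspInfty N) (Fermat.Agent.S15.H362.inclQ N) hσ
  have h1 := hg f
  rw [Fermat.Agent.S15.H362.inclQ_apply] at h1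
  rw [h1, hord]
  exact ⟨(g : ℤ) * (D : Divisor Kbar (FF N)) (Fermat.Agent.S15.H362.cuspInfty N), by ring⟩

/-- The class of a Kummer generator is determined by the generator. -/
theorem isKummerGen_unique247 (hp : p ≠ 0) {f : FF N} {x y : JZero N}
    (hx : IsKummerGen N p f x) (hy : IsKummerGen N p f y) : x = y := by
  obtain ⟨-, D, rfl, hD⟩ := hx
  obtain ⟨-, D', rfl, hD'⟩ := hy
  have : D = D' := by
    apply Subtype.ext
    ext v
    have h1 : (p : ℤ) * (D : Divisor Kbar (FF N)) v = (p : ℤ) * (D' : Divisor Kbar (FF N)) v := by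
      rw [← hD v, ← hD' v]
    exact mul_left_cancel₀ (Int.natCast_ne_zero.mpr hp) h1
  rw [this]

end Core

section Generic

variable {p : ℕ}

/-- **KD, generic level.**  (`N' = N`: the statement mixes `M' * p` and `p * M'`.) -/
theorem kd_core247 (N N' : ℕ) [NeZero N] (hN : N' = N) (hp : p ≠ 0)
    (A : ValuationSubring Kbar) (x t : JZero N) (hpx : p • x = 0) (hpt : p • t = 0)
    (ht0 : t ≠ 0)
    (ht : ∀ σ ∈ A.inertiaSubgroupIn ℚ, ∀ c : ℕ, CycloAt p σ c → σ • t = c • t)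
    {σ₁ : Kbar ≃ₐ[ℚ] Kbar} (hσ₁ : σ₁ ∈ A.inertiaSubgroupIn ℚ) (hσ₁x : σ₁ • x = x + t)
    (E₁ E₂ : IntermediateField ℚ Kbar)
    (hE₁ : ∀ y : Kbar, (∀ ρ ∈ A.inertiaSubgroupIn ℚ, CycloAt p ρ 1 → ρ y = y) → y ∈ E₁)
    (hE₁' : ∀ e ∈ E₁, ∀ ρ ∈ A.inertiaSubgroupIn ℚ, CycloAt p ρ 1 → ρ e = e)
    (hE₂ : ∀ y : Kbar,
      (∀ ρ ∈ A.inertiaSubgroupIn ℚ, CycloAt p ρ 1 → ρ • x = x → ρ y = y) → y ∈ E₂) :
    ∃ (ft : ↥(laurentBaseChange ↥E₁ (modularFunctionFieldFull N')))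
      (f₂ G₀ : ↥(laurentBaseChange ↥E₂ (modularFunctionFieldFull N'))) (Ft f : FF N),
      (ft : LaurentSeries ↥E₁).leadingCoeff = 1 ∧
      (p : ℤ) ∣ (ft : LaurentSeries ↥E₁).order ∧
      (∀ z : ↥(laurentBaseChange ↥E₁ (modularFunctionFieldFull N')), z ^ p ≠ ft) ∧
      IsKummerGen N p Ft t ∧
      (Ft : LaurentSeries Kbar) = coeffMap (algebraMap ↥E₁ Kbar) (ft : LaurentSeries ↥E₁) ∧
      IsKummerGen N p f x ∧
      (f : LaurentSeries Kbar) = coeffMap (algebraMap ↥E₂ Kbar) (f₂ : LaurentSeries ↥E₂) ∧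
      f₂ ≠ 0 ∧ Fermat.Agent.A2.DivisibleDiv ↥E₂ p f₂ ∧
      coeffMap ((σ₁ : Kbar ≃ₐ[ℚ] Kbar) : Kbar →+* Kbar)
          (coeffMap (algebraMap ↥E₂ Kbar) (f₂ : LaurentSeries ↥E₂)) =
        coeffMap (algebraMap ↥E₂ Kbar) (f₂ : LaurentSeries ↥E₂) * HahnSeries.C (1 : Kbar) *
          coeffMap (algebraMap ↥E₁ Kbar) (ft : LaurentSeries ↥E₁) *
          (coeffMap (algebraMap ↥E₂ Kbar) (G₀ : LaurentSeries ↥E₂)) ^ p := by
  subst hN
  obtain ⟨ft, Ft, hFt, hKt, hlFt, hft0, hlft⟩ := exists_ft_BC247 hp A t hpt ht E₁ hE₁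
  obtain ⟨f₂, G₀, fx, hfx, hKx, hlx, hf₂0, hG₀0, hrel⟩ :=
    kummerData_BC247 hp A x t hpx ht hσ₁ hσ₁x E₁ E₂ hE₁' hE₂ ft Ft hFt hKt hlFt
  refine ⟨ft, f₂, G₀, Ft, fx, hlft, ?_, ?_, hKt, hFt, hKx, hfx, hf₂0, ?_, hrel⟩
  · -- `p ∣ order`
    have h1 := dvd_order_of_isKummerGen247 hKt
    rw [hFt, embBC_apply, order_coeffMap_of_injective] at h1
    exact h1
  · -- not a `p`-th power
    intro z hz
    have hz0 : z ≠ 0 := by
      rintro rfl
      rw [zero_pow hp] at hz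
      exact hft0 hz.symm
    have hZmem : embBC (modularFunctionFieldFull _) E₁ z ∈
        laurentBaseChange Kbar (modularFunctionFieldFull _) :=
      imBC_le_BC (modularFunctionFieldFull _) E₁ (embBC_mem _ E₁ z)
    set Z : FF _ := ⟨embBC (modularFunctionFieldFull _) E₁ z, hZmem⟩ with hZ
    have hZ0 : Z ≠ 0 := by
      intro h0
      have h1 : embBC (modularFunctionFieldFull _) E₁ z = 0 := congrArg Subtype.val h0
      rw [map_eq_zero_iff _ (embBC (modularFunctionFieldFull _) E₁).injective] at h1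
      exact hz0 h1
    have hZp : Z ^ p = Ft := by
      apply Subtype.ext
      show (embBC (modularFunctionFieldFull _) E₁ z) ^ p = (Ft : LaurentSeries Kbar)
      rw [← map_pow, hz, hFt]
    have h0 : IsKummerGen _ p (1 * Z ^ p) (0 : JZero _) :=
      isKummerGen_mul_pow247 isKummerGen_one hZ0
    rw [one_mul, hZp] at h0
    exact ht0 (isKummerGen_unique247 hp hKt h0)
  · -- `DivisibleDiv`
    refine Fermat.Agent.A2.T1.H669.divisibleDiv_of_ord E₂ (modularFunctionFieldFull _) p f₂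
      hf₂0 (fun v => ?_)
    have e : Fermat.Agent.A2.T1.H669.iota E₂ (modularFunctionFieldFull _) f₂ = fx :=
      Subtype.ext hfx.symm
    rw [e]
    obtain ⟨-, D, -, hord⟩ := hKx
    exact ⟨_, hord v⟩

end Generic

/-! ## The frozen statement -/

open Fermat.Agent.Ribet.H704.CoreOut Fermat.Agent.A2 in
/-- **KD.** -/
theorem kd247 : Fermat.Agent.Ribet.H704.CoreOut.KDStatement := by
  intro p M' _ _ _ hp hp5 hpM A hA S a hNE x t hx hex ht het hχ hsh hpeu σ₀ hσ₀ hσ₀1 hσ₀x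
    ζ hζ σ₁ u hσ₁ hσ₁1 hσ₁x hσ₁u huA huA' hu0 hup hGood hσp hσfix hσn hE₂ hpeuu
  have hp0 : p ≠ 0 := hp.ne_zero
  have ht0 : t ≠ 0 := by
    rintro rfl
    obtain ⟨n, hn⟩ := hsh σ₀ hσ₀
    rw [smul_zero, add_zero] at hn
    exact hσ₀x hn
  obtain ⟨ft, f₂, G₀, Ft, f, h1, h2, h3, h4, h5, h6, h7, h8, h9, h10⟩ :=
    kd_core247 (p * M') (M' * p) (mul_comm M' p) hp0 A x t hx.1 ht.1 ht0 hχ hσ₁ hσ₁x
      (H944.Tame.tameLevel A ζ) (H944.Tame.wildLevel A ζ u)
      (fun y hy => H944.Tame.mem_tameLevel_of_inK1 A hζ hp0 hy)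
      (fun e he => H944.Tame.inK1_of_mem_tameLevel A hζ.pow_eq_one he)
      (fun y hy => (hE₂ y).mpr hy)
  exact ⟨ft, f₂, G₀, Ft, f, 1, h1, h2, h3, h4, h5, h6, h7, h8, h9, one_mem _, h10⟩

end Fermat.Agent.Ribet.H247

end
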