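/-
# RIBET row 38, WALL-p, (S2), leaf DICT, piece **PURE** (helper247)

`IsSplit + DivisibleDiv ⟹ PureAt` at EVERY closed point of the special fibre of a semistable
chart, for EVERY exponent `m > 0` — in particular for `m = p =` the residue characteristic, which
is what `H103.S2.SplitRedClass` / `DeepPureClass` ask for (`PureAt D.Bf cf p y n`).

This is A2's purity (`A2.Alg.H609.purity_node` at the crossing points,
`A2.Alg.H754.purity_smooth_aux` at the smooth points) without the hypothesis `¬ q ∣ m` of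
`A2.Top.H672.purityS`, which neither proof uses.

* `pureAt_of_isSplit247`      : one chart;
* `pureAt_both_of_isSplit247` : both charts of a two-chart model, in the exact shape of the last
  two fields of `SplitRedClass` / `DeepPureClass`.
-/
import Fermat.Agent.A2.Alg.H754.PuritySmooth
import Fermat.Agent.A2.Alg.H609.PurityNode

set_option autoImplicit false

namespace Fermat.Agent.Ribet.H247

open Fermat.Agent.A2 Fermat.Agent.A2.Alg

section Pure

variable {R E F : Type*} [CommRing R] [IsDomain R] [IsDiscreteValuationRing R]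
  [Field E] [CharZero E] [Algebra R E] [IsFractionRing R E]
  [Field F] [Algebra E F] [Algebra R F] [IsScalarTower R E F]

/-- **DICT / PURE, one chart.**  A split Kummer function with `m ∣ div` is pure at every closed
point of the special fibre, for every exponent `m > 0` (no coprimality with the residue
characteristic). -/
theorem pureAt_of_isSplit247 (m : ℕ) (hm : 0 < m) (w : R) (x : F) (B : Subalgebra R F)
    (hB : ChartCtx E w x B) (c : SSChart w B) (u : F) (hu : u ≠ 0)
    (hdiv : DivisibleDiv E m u) (hs : IsSplit B c u)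
    (n : Ideal B) (hn : n.IsMaximal) (hwn : algebraMap R B w ∈ n) : PureAt B c m u n := by
  by_cases h1 : c.p₁ ≤ n ∧ c.p₂ ≤ n
  · exact H609.purity_node m hm w x B hB c u hdiv hs n hn.isPrime h1.1 h1.2
  · have hle : c.p₁ * c.p₂ ≤ n := by
      refine le_trans Ideal.mul_le_inf ?_
      rw [c.inf_eq, Ideal.span_singleton_le_iff_mem]
      exact hwn
    rcases (Ideal.IsPrime.mul_le hn.isPrime).1 hle with h | h
    · have h2 : ¬ c.p₂ ≤ n := fun h2 => h1 ⟨h, h2⟩
      obtain ⟨d, hd0, hdn, hd1, hd2⟩ := H754.purity_smooth_aux m hm w x B hB c u hu hdiv hs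
        c.p₁ c.p₂ c.prime₁ c.prime₂ c.inf_eq c.not_le₁₂ c.not_le₂₁ c.normal₁ hs.1 n hn h h2
      exact ⟨d, hd0, hdn, hd1, hd2⟩
    · have h2 : ¬ c.p₁ ≤ n := fun h2 => h1 ⟨h2, h⟩
      obtain ⟨d, hd0, hdn, hd2, hd1⟩ := H754.purity_smooth_aux m hm w x B hB c u hu hdiv hs
        c.p₂ c.p₁ c.prime₂ c.prime₁ (by rw [inf_comm]; exact c.inf_eq) c.not_le₂₁ c.not_le₁₂
        c.normal₂ hs.2 n hn h h2
      exact ⟨d, hd0, hdn, hd1, hd2⟩

/-- **DICT / PURE, both charts**, in the shape of the last two fields of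
`H103.S2.SplitRedClass` / `DeepPureClass`. -/
theorem pureAt_both_of_isSplit247 (m : ℕ) (hm : 0 < m) (w : R) (hw : Irreducible w) (x : F)
    (hx : Transcendental E x)
    (hfin : FiniteDimensional (IntermediateField.adjoin E ({x} : Set F)) F)
    (hconst : ∀ f : F, IsAlgebraic E f → f ∈ (algebraMap E F).range)
    (Bf Bi : Subalgebra R F)
    (hBf : ∀ f : F, f ∈ Bf ↔ IsIntegral (Algebra.adjoin R ({x} : Set F)) f)
    (hBi : ∀ f : F, f ∈ Bi ↔ IsIntegral (Algebra.adjoin R ({x⁻¹} : Set F)) f)
    (cf : SSChart w Bf) (ci : SSChart w Bi) (u : F) (hu : u ≠ 0)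
    (hdiv : DivisibleDiv E m u) (hsf : IsSplit Bf cf u) (hsi : IsSplit Bi ci u) :
    (∀ n : Ideal Bf, n.IsMaximal → algebraMap R Bf w ∈ n → PureAt Bf cf m u n) ∧
    (∀ n : Ideal Bi, n.IsMaximal → algebraMap R Bi w ∈ n → PureAt Bi ci m u n) :=
  ⟨fun n hn hwn =>
      pureAt_of_isSplit247 m hm w x Bf ⟨hw, hx, hfin, hconst, hBf⟩ cf u hu hdiv hsf n hn hwn,
    fun n hn hwn =>
      pureAt_of_isSplit247 m hm w x⁻¹ Bi (H34.chartCtx_inv w hw x hx hfin hconst Bi hBi) ci u hu
        hdiv hsi n hn hwn⟩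

end Pure

end Fermat.Agent.Ribet.H247
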