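/-
# RIBET row 38, WALL-p, (S2): adapters for the leaves DICT and NC of `H103/S2Spec.lean`
(helper247)

The `PureAt` fields of `H103.S2.SplitRedClass` and `H103.S2.DeepPureClass` are AUTOMATIC
(`H247.pureAt_both_of_isSplit247`: A2 purity holds for every exponent, also `m = p`):

* `splitRedClass_of_isSplit247` : a Kummer function of `x` which is split (`A2.Alg.IsSplit`) on
  both charts of the standard model is a `SplitRedClass` datum (`RedPowAt` with `g = 1`);
* `deepPureClass_of_deepSplit247` : a Kummer function of `x` which is deeply split on both charts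
  of a model over a good level containing `ζ_p` is a `DeepPureClass` datum.

So the owners of DICT only have to produce a split Kummer function on the standard model, and the
owners of NC only a deeply split one.
-/
import Fermat.Agent.Ribet.H103.S2Spec
import Fermat.Agent.Ribet.H247.DictPure

set_option autoImplicit false
set_option linter.style.haveILetI false
set_option synthInstance.maxHeartbeats 400000
set_option maxHeartbeats 1600000

noncomputable section

namespace Fermat.Agent.Ribet.H247

open AlgebraicCurve ModularCurve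
open Fermat.Agent.A2 Fermat.Agent.A2.Alg Fermat.Agent.A2.T1.H669
open Fermat.Agent.Ribet.H103.AlgP Fermat.Agent.Ribet.H103.S2

/-- `u ∈ 1 + π B_𝔮` with `π ∈ 𝔮` has constant residue `1` on `𝔮`. -/
theorem constAt_of_deepAt247 {R F : Type*} [CommRing R] [Field F] [Algebra R F]
    {B : Subalgebra R F} {𝔮 : Ideal B} {π : R} (hπ : algebraMap R B π ∈ 𝔮) {u : F}
    (h : DeepAt B 𝔮 π u) : ConstAt B 𝔮 u := by
  obtain ⟨a, b, hb, hab, e⟩ := h
  refine ⟨1, isUnit_one, a, b, hb, ?_, e⟩
  rw [map_one, one_mul]
  exact (Ideal.span_singleton_le_iff_mem (I := 𝔮)).2 hπ hab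

/-- A deeply split function (depth `π = r * w`) is split. -/
theorem isSplit_of_isDeepSplit247 {R F : Type*} [CommRing R] [Field F] [Algebra R F]
    {w : R} {B : Subalgebra R F} (c : SSChart w B) (r : R) {u : F}
    (h : IsDeepSplit B c (r * w) u) : IsSplit B c u := by
  have hwpp : algebraMap R B w ∈ c.p₁ ⊓ c.p₂ := by
    rw [c.inf_eq]
    exact Ideal.mem_span_singleton_self _
  exact ⟨constAt_of_deepAt247 (by rw [map_mul]; exact c.p₁.mul_mem_left _ hwpp.1) h.1,
    constAt_of_deepAt247 (by rw [map_mul]; exact c.p₂.mul_mem_left _ hwpp.2) h.2⟩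

/-- `ConstAt` gives `RedPowAt` (with `g = 1`). -/
theorem redPowAt_of_constAt247 {R F : Type*} [CommRing R] [Field F] [Algebra R F]
    {B : Subalgebra R F} {𝔮 : Ideal B} (p : ℕ) {u : F} (h : ConstAt B 𝔮 u) :
    RedPowAt B 𝔮 p u :=
  ⟨1, one_ne_zero, by rwa [one_pow, mul_one]⟩

section Modular

variable (p M' : ℕ) (A : ValuationSubring (AlgebraicClosure ℚ))

/-- The two `PureAt` fields of `SplitRedClass` / `DeepPureClass` for a split Kummer function on
a model over a good level. -/
theorem pureAt_both_of_kummer247 (hp : 0 < p) (x : JZero (p * M'))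
    (E : IntermediateField ℚ (AlgebraicClosure ℚ)) (hE : GoodField A E)
    (D : ModSSData A E (p * M')) (w : RE A E) (hw : Irreducible w) (y : FE E (p * M'))
    (cf : SSChart w D.Bf) (ci : SSChart w D.Bi)
    (hK : IsKummerFn (p * M') p x (iota E (modularFunctionFieldFull (p * M')) y))
    (hsf : IsSplit D.Bf cf y) (hsi : IsSplit D.Bi ci y) :
    (∀ n : Ideal D.Bf, n.IsMaximal → algebraMap (RE A E) D.Bf w ∈ n → PureAt D.Bf cf p y n) ∧
    (∀ n : Ideal D.Bi, n.IsMaximal → algebraMap (RE A E) D.Bi w ∈ n → PureAt D.Bi ci p y n) := by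
  obtain ⟨hf0, Dv, hDx, hord⟩ := hK
  haveI : IsDiscreteValuationRing ↥(RE A E) := hE.dvr
  have hy0 : y ≠ 0 := by
    rintro rfl
    exact hf0 (map_zero _)
  have hdiv : DivisibleDiv E p y :=
    divisibleDiv_of_ord E (modularFunctionFieldFull (p * M')) p y hy0 (fun v => ⟨_, hord v⟩)
  exact pureAt_both_of_isSplit247 (R := ↥(RE A E)) (E := E) (F := ↥(FE E (p * M'))) p hp w hw
    D.x D.hx D.hfin D.hconst D.Bf D.Bi D.hBf D.hBi cf ci y hy0 hdiv hsf hsi

/-- **DICT adapter.**  A Kummer function of `x` over a good level which is split on both charts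
of the standard model makes `x` a split-reduction class. -/
theorem splitRedClass_of_isSplit247 [NeZero p] (hp : 0 < p) (x : JZero (p * M'))
    (E : IntermediateField ℚ (AlgebraicClosure ℚ)) (hE : GoodField A E)
    (D : ModSSData A E (p * M')) (w : RE A E) (hw : Irreducible w) (y : FE E (p * M'))
    (cf : SSChart w D.Bf) (ci : SSChart w D.Bi)
    (hstd : D.x = stdCoord E (p * M') p (dvd_mul_right p M'))
    (hK : IsKummerFn (p * M') p x (iota E (modularFunctionFieldFull (p * M')) y))
    (hsf : IsSplit D.Bf cf y) (hsi : IsSplit D.Bi ci y) : SplitRedClass p M' A x := by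
  obtain ⟨hpf, hpi⟩ := pureAt_both_of_kummer247 p M' A hp x E hE D w hw y cf ci hK hsf hsi
  exact ⟨E, hE, D, w, y, cf, ci, hstd, hw, hK, redPowAt_of_constAt247 p hsf.1,
    redPowAt_of_constAt247 p hsf.2, redPowAt_of_constAt247 p hsi.1,
    redPowAt_of_constAt247 p hsi.2, hpf, hpi⟩

/-- **NC adapter.**  A Kummer function of `x` over a good level containing `ζ_p` which is deeply
split on both charts of a model makes `x` a deeply split pure class. -/
theorem deepPureClass_of_deepSplit247 (hp : 0 < p) (x : JZero (p * M'))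
    (E : IntermediateField ℚ (AlgebraicClosure ℚ)) (hE : GoodField A E)
    (D : ModSSData A E (p * M')) (ζ w : RE A E) (hζ : IsPrimitiveRoot ζ p) (hw : Irreducible w)
    (y : FE E (p * M')) (cf : SSChart w D.Bf) (ci : SSChart w D.Bi)
    (hK : IsKummerFn (p * M') p x (iota E (modularFunctionFieldFull (p * M')) y))
    (hdf : IsDeepSplit D.Bf cf ((ζ - 1) ^ p * w) y)
    (hdi : IsDeepSplit D.Bi ci ((ζ - 1) ^ p * w) y) : DeepPureClass p M' A x := by
  obtain ⟨hpf, hpi⟩ := pureAt_both_of_kummer247 p M' A hp x E hE D w hw y cf ci hK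
    (isSplit_of_isDeepSplit247 cf _ hdf) (isSplit_of_isDeepSplit247 ci _ hdi)
  exact ⟨E, hE, D, ζ, w, y, cf, ci, hζ, hw, hK, hdf, hdi, hpf, hpi⟩

end Modular

end Fermat.Agent.Ribet.H247

end
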